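/-
S36 (G wave), block IG (Igusa pair), helper88: the expansions at the MIDDLE cusps of the
generators of the function field of `X₀(q² R)`.

For `g = [[1, 0], [q R t, 1]] ∈ Γ₀(q R)` with `q w + R t b = 1` and `z = e(b/q)`:
* `g⁻¹ • j_d = j_d` for `d ∣ q R`,
* `g⁻¹ • j_{q² d'}` (`d' ∣ R`) has the expansion `j_{d'}(z Q)`, `Q = e(τ) = u^{q² R}`:
  `j(q² d' · g τ) = j(d' (τ + b/q))`.
-/
import Mathlib
import Fermat.Agent.S36.Ig.EpsTwist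
import Fermat.Agent.S24.EmbFStab

set_option autoImplicit false
set_option linter.style.haveILetI false

noncomputable section

namespace Fermat.Agent.S36Ig

open ModularCurve UpperHalfPlane Fermat.Agent.S24 Fermat.Agent.S24.GensExp
  Fermat.Agent.Kronecker Fermat.Agent.S48WKron
open scoped MatrixGroups

/-- `g = [[1, 0], [c, 1]]`. -/
def epsLow (c : ℤ) : SL(2, ℤ) :=
  ⟨!![1, 0; c, 1], by rw [Matrix.det_fin_two_of]; ring⟩

@[simp] theorem epsLow_00 (c : ℤ) : epsLow c 0 0 = 1 := rfl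
@[simp] theorem epsLow_01 (c : ℤ) : epsLow c 0 1 = 0 := rfl
@[simp] theorem epsLow_10 (c : ℤ) : epsLow c 1 0 = c := rfl
@[simp] theorem epsLow_11 (c : ℤ) : epsLow c 1 1 = 1 := rfl

/-- `γ'' = [[q, -d' b], [c₀ t, w]]`, `q w + d' c₀ t b = 1`. -/
def epsAux (q d' c₀ : ℕ) (t b w : ℤ) (h : (q : ℤ) * w + (d' : ℤ) * c₀ * t * b = 1) : SL(2, ℤ) :=
  ⟨!![(q : ℤ), -((d' : ℤ) * b); (c₀ : ℤ) * t, w], by
    rw [Matrix.det_fin_two_of]
    linear_combination h⟩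

/-- `q² d' · g(τ) = γ''(d' (τ + b/q))`. -/
theorem eps_scale_low_smul (q d' c₀ : ℕ) [NeZero q] [NeZero d'] [NeZero (q * q * d')]
    [NeZero (q * d')] (t b w : ℤ) (h : (q : ℤ) * w + (d' : ℤ) * c₀ * t * b = 1) (τ : ℍ) :
    scale (q * q * d') (epsLow ((q : ℤ) * ((d' : ℤ) * c₀) * t) • τ) =
      epsAux q d' c₀ t b w h •
        aff (q * d') q ((d' : ℤ) * b) (Nat.pos_of_ne_zero (NeZero.ne (q * d')))
          (Nat.pos_of_ne_zero (NeZero.ne q)) τ := by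
  apply UpperHalfPlane.ext
  have h1 := sl2_denom_ne_zero (epsLow ((q : ℤ) * ((d' : ℤ) * c₀) * t)) τ
  have h2 := sl2_denom_ne_zero (epsAux q d' c₀ t b w h)
    (aff (q * d') q ((d' : ℤ) * b) (Nat.pos_of_ne_zero (NeZero.ne (q * d')))
      (Nat.pos_of_ne_zero (NeZero.ne q)) τ)
  have hq : (q : ℂ) ≠ 0 := by exact_mod_cast NeZero.ne q
  have hC : ((q : ℂ) * (w : ℂ) + (d' : ℂ) * (c₀ : ℂ) * (t : ℂ) * (b : ℂ)) = 1 := by
    exact_mod_cast congrArg (Int.cast : ℤ → ℂ) h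
  rw [coe_scale, coe_sl2_smul, coe_sl2_smul, coe_aff]
  rw [coe_aff] at h2
  have e00 : (epsAux q d' c₀ t b w h) 0 0 = (q : ℤ) := rfl
  have e01 : (epsAux q d' c₀ t b w h) 0 1 = -((d' : ℤ) * b) := rfl
  have e10 : (epsAux q d' c₀ t b w h) 1 0 = (c₀ : ℤ) * t := rfl
  have e11 : (epsAux q d' c₀ t b w h) 1 1 = w := rfl
  rw [e10, e11] at h2
  rw [e00, e01, e10, e11]
  simp only [epsLow_00, epsLow_01, epsLow_10, epsLow_11] at h1 ⊢
  push_cast at h1 h2 ⊢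
  have hden : (c₀ : ℂ) * (t : ℂ) * (((q : ℂ) * (d' : ℂ) * (τ : ℂ) + (d' : ℂ) * (b : ℂ)) / (q : ℂ))
      + (w : ℂ) = ((q : ℂ) * ((d' : ℂ) * (c₀ : ℂ)) * (t : ℂ) * (τ : ℂ) + 1) / (q : ℂ) := by
    field_simp
    linear_combination hC
  rw [hden] at h2 ⊢
  have h3 : (q : ℂ) * ((d' : ℂ) * (c₀ : ℂ)) * (t : ℂ) * (τ : ℂ) + 1 ≠ 0 := h1
  field_simp
  ring

/-- `HasExp 1 j (q⁻¹ + 744 + ⋯)`. -/
theorem eps_hasExp_jFun : HasExp 1 jFun (jqModC Kbar) := by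
  have h := hasExp_jd 1 1 (dvd_refl 1)
  rw [EmbFHom.jd_one, qExpand_congr (show 1 * 1 = 1 from rfl), qExpand_one_apply] at h
  exact h

theorem eps_norm_iota_of_pow {z : Kbarˣ} {n : ℕ} (hn : n ≠ 0) (hz : z ^ n = 1) :
    ‖iota (z : Kbar)‖ = 1 := by
  have h1 : (iota (z : Kbar)) ^ n = 1 := by
    rw [← map_pow, ← Units.val_pow_eq_pow_val, hz, Units.val_one, map_one]
  exact Complex.norm_eq_one_of_pow_eq_one h1 hn

/-- the expansion of `τ ↦ j(d' (τ + b/q))` in `u = e(τ/(M₀ q²))`: `j_{d'}(z Q)`, `Q = u^{M₀ q²}`,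
`z = e(b/q)`. -/
theorem eps_hasExp_jFun_aff (M₀ q d' : ℕ) [NeZero M₀] [NeZero q] [NeZero d'] [NeZero (q * d')]
    [NeZero (M₀ * q * q)] (b : ℤ) (z : Kbarˣ) (hzq : z ^ q = 1)
    (hz : iota (z : Kbar) = Complex.exp (2 * Real.pi * Complex.I * (b : ℂ) / (q : ℂ))) :
    HasExp (M₀ * q * q)
      (fun τ => jFun (aff (q * d') q ((d' : ℤ) * b) (Nat.pos_of_ne_zero (NeZero.ne (q * d')))
        (Nat.pos_of_ne_zero (NeZero.ne q)) τ))
      (qExpand Kbar (M₀ * q * q) (scaleL z (qExpand Kbar d' (jqModC Kbar)))) := by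
  haveI : NeZero (q * d' * (M₀ * q)) :=
    ⟨mul_ne_zero (NeZero.ne (q * d')) (mul_ne_zero (NeZero.ne M₀) (NeZero.ne q))⟩
  haveI : NeZero (M₀ * q * q * d') := ⟨mul_ne_zero (NeZero.ne (M₀ * q * q)) (NeZero.ne d')⟩
  have hzd : (z ^ d') ^ q = 1 := by rw [← pow_mul, mul_comm, pow_mul, hzq, one_pow]
  have hφ : ∀ τ : ℍ, uParam 1 (aff (q * d') q ((d' : ℤ) * b)
      (Nat.pos_of_ne_zero (NeZero.ne (q * d'))) (Nat.pos_of_ne_zero (NeZero.ne q)) τ)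
      = iota ((z ^ d' : Kbarˣ) : Kbar) * uParam (M₀ * q * q) τ ^ (q * d' * (M₀ * q)) := by
    intro τ
    rw [uParam_one_aff (M₀ * q * q) (q * d') q (M₀ * q) ((d' : ℤ) * b) _ _
      (by ring) (Nat.mul_pos (Nat.pos_of_ne_zero (NeZero.ne M₀))
        (Nat.pos_of_ne_zero (NeZero.ne q)))]
    congr 1
    rw [Units.val_pow_eq_pow_val, map_pow, hz, ← Complex.exp_nat_mul]
    congr 1
    push_cast
    ring
  have h1 := epsTw_hasExp_comp eps_hasExp_jFun _ (z ^ d')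
    (eps_norm_iota_of_pow (NeZero.ne q) hzd) (q * d' * (M₀ * q)) hφ
  have e : qExpand Kbar (q * d' * (M₀ * q)) (scaleL (z ^ d') (jqModC Kbar)) =
      qExpand Kbar (M₀ * q * q) (scaleL z (qExpand Kbar d' (jqModC Kbar))) := by
    rw [scaleL_qExpand, qExpand_qExpand,
      qExpand_congr (show M₀ * q * q * d' = q * d' * (M₀ * q) by ring)]
  rw [← e]
  exact h1

/-- **the middle cusp**: `g⁻¹ • j_{q² d'}` has the expansion `j_{d'}(z Q)`,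
`g = [[1, 0], [M₀ q t, 1]]`, `q w + M₀ t b = 1`, `z = e(b/q)`, `d' ∣ M₀`. -/
theorem eps_hasExp_low_smul_jd (M₀ q d' : ℕ) [NeZero M₀] [NeZero q] [NeZero d']
    [NeZero (q * q * d')] [NeZero (M₀ * q * q)] (hd : d' ∣ M₀) (t b w : ℤ)
    (h : (q : ℤ) * w + (M₀ : ℤ) * t * b = 1) (z : Kbarˣ) (hzq : z ^ q = 1)
    (hz : iota (z : Kbar) = Complex.exp (2 * Real.pi * Complex.I * (b : ℂ) / (q : ℂ))) :
    HasExp (M₀ * q * q) ((epsLow ((M₀ : ℤ) * q * t))⁻¹ • jd (q * q * d'))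
      (qExpand Kbar (M₀ * q * q) (scaleL z (qExpand Kbar d' (jqModC Kbar)))) := by
  haveI : NeZero (q * d') := ⟨mul_ne_zero (NeZero.ne q) (NeZero.ne d')⟩
  obtain ⟨c₀, hc₀⟩ := hd
  have h' : (q : ℤ) * w + (d' : ℤ) * c₀ * t * b = 1 := by
    rw [hc₀] at h
    push_cast at h
    linear_combination h
  have hc : ((M₀ : ℤ) * q * t) = (q : ℤ) * ((d' : ℤ) * c₀) * t := by
    rw [hc₀]
    push_cast
    ring
  refine hasExp_congr_fun (eps_hasExp_jFun_aff M₀ q d' b z hzq hz) fun τ => ?_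
  show jFun (scale (q * q * d') ((epsLow ((M₀ : ℤ) * q * t))⁻¹⁻¹ • τ)) = _
  rw [inv_inv, hc, eps_scale_low_smul q d' c₀ t b w h', jFun_smul_pt]

/-- `g⁻¹` fixes `j_d` for `d ∣ M₀ q`. -/
theorem eps_low_smul_jd (M₀ q d : ℕ) [NeZero d] (hd : d ∣ M₀ * q) (t : ℤ) :
    (epsLow ((M₀ : ℤ) * q * t))⁻¹ • jd d = jd d := by
  rw [smul_jd_eq_iff]
  apply inv_mem
  apply EmbFStab.mem_Gamma0_of_dvd
  rw [epsLow_10]
  have h1 : (d : ℤ) ∣ ((M₀ * q : ℕ) : ℤ) := Int.natCast_dvd_natCast.mpr hd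
  push_cast at h1
  exact Dvd.dvd.mul_right h1 t

end Fermat.Agent.S36Ig
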