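/-
S36 (G wave), block IG (Igusa pair), helper88: substitution `u_{M₀} ∘ φ = z · u_M^k` in a Laurent
expansion, EXPLICIT form: the expansion of `g ∘ φ` is `A(z u^k)`.
(Generalises `Kron/Conj.lean` `kcj_hasExp_comp` (`z = 1`) and makes `Kron/Scale.lean`
`hasExp_comp_of_uParam` explicit.)
-/
import Mathlib
import Fermat.Agent.S48.W.G.Kron.Scale
import Fermat.Agent.Lib.Kronecker.ConjGens2

set_option autoImplicit false

noncomputable section

namespace Fermat.Agent.S36Ig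

open ModularCurve UpperHalfPlane Fermat.Agent.S24 Fermat.Agent.S24.GensExp
  Fermat.Agent.Kronecker Fermat.Agent.S48WKron
open scoped MatrixGroups

/-- `(Σ pₙ qⁿ)(z u^k) = Σ pₙ zⁿ u^{kn}`. -/
theorem epsTw_ofPowerSeries (z : Kbarˣ) (k : ℕ) [NeZero k] (P : PowerSeries Kbar) :
    qExpand Kbar k (scaleL z (HahnSeries.ofPowerSeries ℤ Kbar P)) =
      HahnSeries.ofPowerSeries ℤ Kbar (substPS (z : Kbar) k P) := by
  have hk0 : (0 : ℤ) < k := by exact_mod_cast Nat.pos_of_ne_zero (NeZero.ne k)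
  ext n
  by_cases hn : n < 0
  · rw [ModularCurve.ofPowerSeries_coeff_of_neg _ hn]
    by_cases hk : (k : ℤ) ∣ n
    · obtain ⟨j, rfl⟩ := hk
      rw [qExpand_coeff_mul, scaleL_coeff]
      have hj : j < 0 := by
        by_contra hj
        rw [not_lt] at hj
        have := mul_nonneg hk0.le hj
        omega
      rw [ModularCurve.ofPowerSeries_coeff_of_neg _ hj, mul_zero]
    · exact qExpand_coeff_of_not_dvd k _ hk
  · rw [not_lt] at hn
    obtain ⟨n', rfl⟩ := Int.eq_ofNat_of_zero_le hn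
    rw [HahnSeries.ofPowerSeries_apply_coeff, coeff_substPS]
    by_cases hk : k ∣ n'
    · obtain ⟨j, rfl⟩ := hk
      rw [if_pos (dvd_mul_right k j),
        Nat.mul_div_cancel_left j (Nat.pos_of_ne_zero (NeZero.ne k))]
      have : ((k * j : ℕ) : ℤ) = (k : ℤ) * (j : ℤ) := by push_cast; ring
      rw [this, qExpand_coeff_mul, scaleL_coeff, HahnSeries.ofPowerSeries_apply_coeff,
        zpow_natCast, Units.val_pow_eq_pow_val]
    · rw [if_neg hk]
      refine qExpand_coeff_of_not_dvd k _ ?_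
      intro h
      exact hk (by exact_mod_cast h)

/-- `scaleL z (q^{-μ} P) (u^k) = u^{-kμ} · z^{-μ} · Σ pₙ zⁿ u^{kn}`. -/
theorem epsTw_series (z : Kbarˣ) (k : ℕ) [NeZero k] (μ : ℕ) (P : PowerSeries Kbar) :
    qExpand Kbar k (scaleL z
        (HahnSeries.single (-(μ : ℤ)) (1 : Kbar) * HahnSeries.ofPowerSeries ℤ Kbar P)) =
      HahnSeries.single (-((k * μ : ℕ) : ℤ)) (1 : Kbar) *
        HahnSeries.ofPowerSeries ℤ Kbar
          (PowerSeries.C (((z⁻¹ : Kbarˣ) : Kbar) ^ μ) * substPS (z : Kbar) k P) := by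
  have e : (k : ℤ) * -(μ : ℤ) = -((k * μ : ℕ) : ℤ) := by push_cast; ring
  have h1 : qExpand Kbar k (scaleL z (HahnSeries.single (-(μ : ℤ)) (1 : Kbar))) =
      HahnSeries.single (-((k * μ : ℕ) : ℤ)) (1 : Kbar) *
        HahnSeries.ofPowerSeries ℤ Kbar (PowerSeries.C (((z⁻¹ : Kbarˣ) : Kbar) ^ μ)) := by
    rw [scaleL_single, qExpand_single, e, HahnSeries.ofPowerSeries_C, HahnSeries.C_apply,
      HahnSeries.single_mul_single, add_zero, one_mul, mul_one, zpow_neg, zpow_natCast,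
      ← inv_pow, Units.val_pow_eq_pow_val]
  rw [map_mul (scaleL z), map_mul (qExpand Kbar k), h1, epsTw_ofPowerSeries,
    map_mul (HahnSeries.ofPowerSeries ℤ Kbar), mul_assoc]

/-- **Substitution** `u_{M₀} ∘ φ = z · u_M^k` in a Laurent expansion: the expansion of `g ∘ φ`
is `A(z u^k)`. -/
theorem epsTw_hasExp_comp {M₀ M : ℕ} {g : Fun} {A : LaurentSeries Kbar}
    (hg : HasExp M₀ g A) (φ : ℍ → ℍ) (z : Kbarˣ) (hz : ‖iota (z : Kbar)‖ = 1) (k : ℕ)
    [NeZero k] (hφ : ∀ τ, uParam M₀ (φ τ) = iota (z : Kbar) * uParam M τ ^ k) :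
    HasExp M (fun τ => g (φ τ)) (qExpand Kbar k (scaleL z A)) := by
  obtain ⟨μ, P, rfl, hP⟩ := hg
  have hk : 0 < k := Nat.pos_of_ne_zero (NeZero.ne k)
  have h1 := hasPExp_substPS hP φ (z : Kbar) hz k hk hφ
  have hz0 : iota (z : Kbar) ≠ 0 := by
    intro h
    rw [h, norm_zero] at hz
    exact zero_ne_one hz
  have h2 := (HasPExp.const M (((z⁻¹ : Kbarˣ) : Kbar) ^ μ)).mul h1
  refine ⟨k * μ, _, epsTw_series z k μ P, HasExp.pexp_congr h2 fun τ => ?_⟩
  show g (φ τ) * uParam M τ ^ (k * μ)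
    = iota (((z⁻¹ : Kbarˣ) : Kbar) ^ μ) * (g (φ τ) * uParam M₀ (φ τ) ^ μ)
  rw [hφ τ, mul_pow, map_pow, Units.val_inv_eq_inv_val, map_inv₀, pow_mul]
  have hinv : (iota (z : Kbar))⁻¹ ^ μ * iota (z : Kbar) ^ μ = 1 := by
    rw [← mul_pow, inv_mul_cancel₀ hz0, one_pow]
  linear_combination (-(g (φ τ) * (uParam M τ ^ k) ^ μ)) * hinv

end Fermat.Agent.S36Ig
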